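import Fermat.Prelude.Def_Algebra_PatchingDatum
import Mathlib

set_option autoImplicit false

namespace Fermat.Agent.S57

/-- Coordinates of an element of `I • ⊤` with respect to a basis lie in `I`. -/
theorem fin_repr_mem {A : Type*} [CommRing A] {N : Type*} [AddCommGroup N] [Module A N]
    {ι : Type*} (e : Module.Basis ι A N) (I : Ideal A) (x : N)
    (hx : x ∈ I • (⊤ : Submodule A N)) (j : ι) : e.repr x j ∈ I := by
  rw [← e.span_eq] at hx
  obtain ⟨a, ha, rfl⟩ := (Submodule.mem_ideal_smul_span_iff_exists_sum I e x).1 hx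
  have h : e.repr (a.sum fun i c => c • e i) = a := by
    have h2 : (a.sum fun i c => c • e i) = Finsupp.linearCombination A e a := by
      rw [Finsupp.linearCombination_apply]
    rw [h2, e.repr_linearCombination]
  rw [h]
  exact ha j

/-- Coefficients of a finite combination of basis vectors lying in `I • ⊤` are in `I`. -/
theorem fin_coeff_mem {A : Type*} [CommRing A] {N : Type*} [AddCommGroup N] [Module A N]
    {ι : Type*} [Fintype ι] (e : Module.Basis ι A N) (I : Ideal A) (c : ι → A)
    (hx : ∑ j, c j • e j ∈ I • (⊤ : Submodule A N)) (j : ι) : c j ∈ I := by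
  have h := fin_repr_mem e I _ hx j
  have h2 : e.repr (∑ j, c j • e j) = Finsupp.equivFunOnFinite.symm c := by
    apply Finsupp.ext
    intro i
    have := e.equivFun_symm_apply c
    have h3 : e.equivFun (∑ j, c j • e j) = c := by
      rw [← this, LinearEquiv.apply_symm_apply]
    have h4 := congrFun h3 i
    rw [Module.Basis.equivFun_apply] at h4
    rw [h4]
    rfl
  rw [h2] at h
  exact h

theorem final {𝒪 : Type} [CommRing 𝒪] {r : ℕ} {R : Type} [CommRing R] [Algebra 𝒪 R]
    {M : Type} [AddCommGroup M] [Module R M] [Nontrivial M]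
    {J : Ideal (MvPowerSeries (Fin r) 𝒪)}
    (L : Algebra.PatchingLevel 𝒪 r R M J)
    (hfree : Module.Free (MvPowerSeries (Fin r) 𝒪) L.N)
    (hfin : Module.Finite (MvPowerSeries (Fin r) 𝒪) L.N) :
    Module.Free R M ∧ Module.annihilator R M = ⊥ ∧
      RingHom.ker L.ψ = Ideal.span (Set.range fun i : Fin r => L.φ (MvPowerSeries.X i)) := by
  classical
  -- `L.N` is nontrivial
  have hN : Nontrivial L.N := by
    obtain ⟨m, hm⟩ := exists_ne (0 : M)
    obtain ⟨x, rfl⟩ := L.π_surjective m
    exact ⟨⟨x, 0, fun h => hm (by rw [h, map_zero])⟩⟩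
  -- a finite basis
  let e : Module.Basis (Module.Free.ChooseBasisIndex (MvPowerSeries (Fin r) 𝒪) L.N)
      (MvPowerSeries (Fin r) 𝒪) L.N := Module.Free.chooseBasis (MvPowerSeries (Fin r) 𝒪) L.N
  have : Fintype (Module.Free.ChooseBasisIndex (MvPowerSeries (Fin r) 𝒪) L.N) :=
    Module.Free.ChooseBasisIndex.fintype _ _
  obtain ⟨j₀⟩ : Nonempty (Module.Free.ChooseBasisIndex (MvPowerSeries (Fin r) 𝒪) L.N) :=
    e.index_nonempty
  -- the kernel of `ψ`
  have hker : RingHom.ker L.ψ =
      Ideal.span (Set.range fun i : Fin r => L.φ (MvPowerSeries.X i)) := by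
    apply le_antisymm
    · intro f hf
      rw [RingHom.mem_ker] at hf
      have h1 : L.π (f • e j₀) = 0 := by rw [L.π_smul, hf, zero_smul]
      have h2 := (L.ker_π _).1 h1
      have h3 := fin_repr_mem e _ _ h2 j₀
      simpa using h3
    · rw [Ideal.span_le]
      rintro _ ⟨i, rfl⟩
      exact L.ψ_φ_X i
  -- semilinearity on sums
  have hsum : ∀ c : Module.Free.ChooseBasisIndex (MvPowerSeries (Fin r) 𝒪) L.N →
      MvPowerSeries (Fin r) 𝒪, L.π (∑ j, c j • e j) = ∑ j, L.ψ (c j) • L.π (e j) := by
    intro c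
    rw [map_sum]
    exact Finset.sum_congr rfl fun j _ => L.π_smul _ _
  -- linear independence of the images
  have hli : LinearIndependent R (fun j => L.π (e j)) := by
    rw [Fintype.linearIndependent_iff]
    intro g hg j
    choose c hc using fun j => L.ψ_surjective (g j)
    have h1 : L.π (∑ j, c j • e j) = 0 := by
      rw [hsum, ← hg]
      exact Finset.sum_congr rfl fun j _ => by rw [hc]
    have h2 := (L.ker_π _).1 h1
    have h3 := fin_coeff_mem e _ c h2 j
    rw [← hker, RingHom.mem_ker, hc] at h3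
    exact h3
  -- spanning
  have hspan : ⊤ ≤ Submodule.span R (Set.range fun j => L.π (e j)) := by
    intro m _
    obtain ⟨x, rfl⟩ := L.π_surjective m
    rw [← e.sum_repr x, hsum]
    exact Submodule.sum_mem _ fun j _ =>
      Submodule.smul_mem _ _ (Submodule.subset_span (Set.mem_range_self j))
  refine ⟨Module.Free.of_basis (Module.Basis.mk hli hspan), ?_, hker⟩
  -- annihilator
  rw [eq_bot_iff]
  intro a ha
  rw [Module.mem_annihilator] at ha
  have h1 := ha (L.π (e j₀))
  rw [Fintype.linearIndependent_iff] at hli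
  have h2 := hli (Pi.single j₀ a) (by
    rw [Finset.sum_eq_single j₀]
    · simpa using h1
    · intro b _ hb
      rw [Pi.single_eq_of_ne hb, zero_smul]
    · intro h
      exact absurd (Finset.mem_univ _) h) j₀
  simpa using h2

end Fermat.Agent.S57
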