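import Mathlib

set_option autoImplicit false

namespace Fermat.Agent.S57

open IsLocalRing RingTheory.Sequence

section RsAux

variable {σ : Type*} {R : Type*} [CommRing R]

/-- Membership in the ideal generated by a finite set of variables. -/
theorem rs_mem_span_X_iff (s : Finset σ) (f : MvPowerSeries σ R) :
    f ∈ Ideal.span ((fun j => (MvPowerSeries.X j : MvPowerSeries σ R)) '' (s : Set σ)) ↔
      ∀ m : σ →₀ ℕ, (∀ j ∈ s, m j = 0) → MvPowerSeries.coeff m f = 0 := by
  classical
  induction s using Finset.induction_on generalizing f with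
  | empty =>
    simp only [Finset.coe_empty, Set.image_empty, Ideal.span_empty, Ideal.mem_bot]
    constructor
    · rintro rfl m _
      simp
    · intro h
      ext m
      simpa using h m (by simp)
  | insert a s ha ih =>
    rw [Finset.coe_insert, Set.image_insert_eq, Ideal.span_insert, Submodule.mem_sup]
    constructor
    · rintro ⟨y, hy, z, hz, rfl⟩ m hm
      rw [Ideal.mem_span_singleton] at hy
      rw [map_add, MvPowerSeries.X_dvd_iff.mp hy m (hm a (Finset.mem_insert_self a s)),
        (ih z).mp hz m (fun j hj => hm j (Finset.mem_insert_of_mem hj)), add_zero]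
    · intro h
      let g : MvPowerSeries σ R := fun m => if m a = 0 then MvPowerSeries.coeff m f else 0
      have hg : ∀ m, MvPowerSeries.coeff m g = if m a = 0 then MvPowerSeries.coeff m f else 0 :=
        fun m => rfl
      refine ⟨f - g, ?_, g, ?_, sub_add_cancel f g⟩
      · rw [Ideal.mem_span_singleton, MvPowerSeries.X_dvd_iff]
        intro m hm
        rw [map_sub, hg, if_pos hm, sub_self]
      · rw [ih]
        intro m hm
        rw [hg]
        split_ifs with h0
        · refine h m (fun j hj => ?_)
          rcases Finset.mem_insert.mp hj with rfl | hj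
          · exact h0
          · exact hm j hj
        · rfl

/-- The ideal generated by a list of variables, as a span over a finset. -/
theorem rs_ofList_map_X (l : List σ) [DecidableEq σ] :
    Ideal.ofList (l.map (fun i => (MvPowerSeries.X i : MvPowerSeries σ R))) =
      Ideal.span ((fun j => (MvPowerSeries.X j : MvPowerSeries σ R)) '' (l.toFinset : Set σ)) := by
  have h : {x | x ∈ l.map (fun i => (MvPowerSeries.X i : MvPowerSeries σ R))} =
      (fun j => (MvPowerSeries.X j : MvPowerSeries σ R)) '' (l.toFinset : Set σ) := by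
    ext x
    simp
  exact congrArg Ideal.span h

/-- Membership in the ideal generated by a list of variables. -/
theorem rs_mem_ofList_map_X_iff (l : List σ) (f : MvPowerSeries σ R) :
    f ∈ Ideal.ofList (l.map (fun i => (MvPowerSeries.X i : MvPowerSeries σ R))) ↔
      ∀ m : σ →₀ ℕ, (∀ j ∈ l, m j = 0) → MvPowerSeries.coeff m f = 0 := by
  classical
  rw [rs_ofList_map_X, rs_mem_span_X_iff]
  simp only [List.mem_toFinset]

/-- The coefficient of `X a * f` at `m + single a 1`. -/
theorem rs_coeff_X_mul (a : σ) (f : MvPowerSeries σ R) (m : σ →₀ ℕ) :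
    MvPowerSeries.coeff (m + Finsupp.single a 1) (MvPowerSeries.X a * f) =
      MvPowerSeries.coeff m f := by
  rw [add_comm, MvPowerSeries.X_def, MvPowerSeries.coeff_add_monomial_mul, one_mul]

/-- Distinct variables form a weakly regular sequence. -/
theorem rs_isWeaklyRegular_map_X (l : List σ) (hl : l.Nodup) :
    IsWeaklyRegular (MvPowerSeries σ R)
      (l.map (fun i => (MvPowerSeries.X i : MvPowerSeries σ R))) := by
  classical
  rw [isWeaklyRegular_iff_Fin]
  intro i
  rw [isSMulRegular_quotient_iff_mem_of_smul_mem]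
  intro f hf
  have hi : (i : ℕ) < l.length := by simpa using i.2
  rw [smul_eq_mul, Ideal.mul_top, ← List.map_take, rs_mem_ofList_map_X_iff] at hf ⊢
  intro m hm
  have hget : (l.map (fun i => (MvPowerSeries.X i : MvPowerSeries σ R)))[i] =
      MvPowerSeries.X l[(i : ℕ)] := by
    simp
  rw [hget, smul_eq_mul] at hf
  rw [← rs_coeff_X_mul l[(i : ℕ)] f m]
  apply hf
  intro j hj
  have hne : j ≠ l[(i : ℕ)] := by
    rintro rfl
    obtain ⟨k, hk, hk'⟩ := List.mem_take_iff_getElem.mp hj
    have hk1 : k < i := (lt_min_iff.mp hk).1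
    have := (hl.getElem_inj_iff).mp hk'
    omega
  rw [Finsupp.add_apply, hm j hj, Finsupp.single_eq_of_ne hne, add_zero]

end RsAux

section RegSeq

variable (R : Type) [CommRing R] (r : ℕ)

/-- The list `[X 0, …, X (r-1), C ϖ]` of power series in `r` variables. -/
noncomputable def xs (ϖ : R) : List (MvPowerSeries (Fin r) R) :=
  (List.finRange r).map (fun i => (MvPowerSeries.X i : MvPowerSeries (Fin r) R)) ++
    [MvPowerSeries.C ϖ]

theorem xs_length (ϖ : R) : (xs R r ϖ).length = r + 1 := by simp [xs]

theorem xs_isWeaklyRegular (ϖ : R) (hϖ : ∀ a : R, ϖ * a = 0 → a = 0) :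
    IsWeaklyRegular (MvPowerSeries (Fin r) R) (xs R r ϖ) := by
  rw [xs, isWeaklyRegular_append_iff]
  refine ⟨rs_isWeaklyRegular_map_X _ (List.nodup_finRange r), ?_⟩
  rw [isWeaklyRegular_singleton_iff, isSMulRegular_quotient_iff_mem_of_smul_mem]
  intro f hf
  rw [smul_eq_mul, Ideal.mul_top, rs_mem_ofList_map_X_iff] at hf ⊢
  intro m hm
  have := hf m hm
  rw [smul_eq_mul, MvPowerSeries.coeff_C_mul] at this
  exact hϖ _ this

theorem ofList_xs [IsLocalRing R] (ϖ : R) (hϖ : maximalIdeal R = Ideal.span {ϖ}) :
    Ideal.ofList (xs R r ϖ) = maximalIdeal (MvPowerSeries (Fin r) R) := by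
  have hϖm : ϖ ∈ maximalIdeal R := by
    rw [hϖ]
    exact Ideal.mem_span_singleton_self ϖ
  rw [xs, Ideal.ofList_append, Ideal.ofList_singleton]
  apply le_antisymm
  · rw [sup_le_iff]
    constructor
    · intro f hf
      rw [rs_mem_ofList_map_X_iff] at hf
      rw [IsLocalRing.mem_maximalIdeal, mem_nonunits_iff,
        MvPowerSeries.isUnit_iff_constantCoeff]
      have h0 : MvPowerSeries.constantCoeff f = 0 := by
        rw [← MvPowerSeries.coeff_zero_eq_constantCoeff_apply]
        exact hf 0 (fun j _ => rfl)
      rw [h0]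
      exact not_isUnit_zero
    · rw [Ideal.span_singleton_le_iff_mem, IsLocalRing.mem_maximalIdeal, mem_nonunits_iff,
        MvPowerSeries.isUnit_iff_constantCoeff, MvPowerSeries.constantCoeff_C]
      exact (IsLocalRing.mem_maximalIdeal _).mp hϖm
  · intro f hf
    rw [IsLocalRing.mem_maximalIdeal, mem_nonunits_iff,
      MvPowerSeries.isUnit_iff_constantCoeff] at hf
    have hf' : MvPowerSeries.constantCoeff f ∈ maximalIdeal R := hf
    rw [hϖ, Ideal.mem_span_singleton'] at hf'
    obtain ⟨a, ha⟩ := hf'
    rw [Submodule.mem_sup]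
    refine ⟨f - MvPowerSeries.C ϖ * MvPowerSeries.C a, ?_,
      MvPowerSeries.C ϖ * MvPowerSeries.C a, ?_, sub_add_cancel _ _⟩
    · rw [rs_mem_ofList_map_X_iff]
      intro m hm
      have hm0 : m = 0 := by
        ext j
        exact hm j (List.mem_finRange j)
      subst hm0
      rw [map_sub, MvPowerSeries.coeff_C_mul, MvPowerSeries.coeff_zero_eq_constantCoeff_apply,
        MvPowerSeries.coeff_zero_eq_constantCoeff_apply, MvPowerSeries.constantCoeff_C, ← ha,
        mul_comm, sub_self]
    · exact Ideal.mul_mem_right _ _ (Ideal.mem_span_singleton_self _)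

end RegSeq

end Fermat.Agent.S57
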