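import Fermat.Prelude.Def_Algebra_PatchingDatum
import Fermat.Agent.S57.RegSeq
import Mathlib

set_option autoImplicit false

namespace Fermat.Agent.S57

open IsLocalRing RingTheory.Sequence

section Level

/-- A module over an `A`-algebra `B` which is spanned over `A` by finitely many elements
killed by a maximal ideal of `A` is artinian over `B`. -/
theorem lv_isArtinian_of_residue {A B Q : Type} [CommRing A] [CommRing B] [Algebra A B]
    [AddCommGroup Q] [Module B Q] (m : Ideal A) [m.IsMaximal] {d : ℕ} (q : Fin d → Q)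
    (hspan : ∀ x : Q, ∃ a : Fin d → A, x = ∑ i, algebraMap A B (a i) • q i)
    (hm : ∀ a ∈ m, ∀ i, algebraMap A B a • q i = 0) : IsArtinian B Q := by
  let _ : Module A Q := Module.compHom Q (algebraMap A B)
  have hsmul : ∀ (a : A) (x : Q), a • x = algebraMap A B a • x := fun _ _ => rfl
  have : IsScalarTower A B Q := ⟨fun a b x => by
    rw [hsmul, Algebra.smul_def, mul_smul]⟩
  refine isArtinian_of_tower A ?_
  have hsimple : IsSimpleModule A (A ⧸ m) :=
    isSimpleModule_iff_quot_maximal.mpr ⟨m, inferInstance, ⟨LinearEquiv.refl _ _⟩⟩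
  have : IsArtinian A (A ⧸ m) := inferInstance
  let g : (Fin d → A ⧸ m) →ₗ[A] Q :=
    ∑ i, (Submodule.liftQ m (LinearMap.toSpanSingleton A Q (q i)) (by
      intro a ha
      simp only [LinearMap.mem_ker, LinearMap.toSpanSingleton_apply]
      rw [hsmul]
      exact hm a ha i)) ∘ₗ LinearMap.proj i
  refine isArtinian_of_surjective _ g ?_
  intro x
  obtain ⟨a, rfl⟩ := hspan x
  refine ⟨fun i => Ideal.Quotient.mk m (a i), ?_⟩
  simp only [g, LinearMap.sum_apply, LinearMap.comp_apply, LinearMap.proj_apply]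
  refine Finset.sum_congr rfl fun i _ => ?_
  change (Submodule.liftQ m (LinearMap.toSpanSingleton A Q (q i)) _) (Submodule.Quotient.mk (a i)) = _
  rw [Submodule.liftQ_apply, LinearMap.toSpanSingleton_apply, hsmul]

variable {𝒪 : Type} [CommRing 𝒪]
    {r : ℕ} {R : Type} [CommRing R] [Algebra 𝒪 R]
    {M : Type} [AddCommGroup M] [Module R M]

theorem finite_N {J : Ideal (MvPowerSeries (Fin r) 𝒪)} (L : Algebra.PatchingLevel 𝒪 r R M J) :
    Module.Finite (MvPowerSeries (Fin r) 𝒪) L.N := by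
  have h : Submodule.span (MvPowerSeries (Fin r) 𝒪) (Set.range L.b) = ⊤ := by
    rw [eq_top_iff]
    intro x _
    obtain ⟨c, rfl⟩ := L.b_span x
    exact Submodule.sum_mem _ fun i _ => Submodule.smul_mem _ _ (Submodule.subset_span ⟨i, rfl⟩)
  exact ⟨h ▸ Submodule.fg_span (Set.finite_range L.b)⟩

theorem nontrivial_N [Nontrivial M] {J : Ideal (MvPowerSeries (Fin r) 𝒪)}
    (L : Algebra.PatchingLevel 𝒪 r R M J) : Nontrivial L.N :=
  L.π_surjective.nontrivial

theorem phi_X_mem [IsLocalRing 𝒪] [Nontrivial M] {J : Ideal (MvPowerSeries (Fin r) 𝒪)}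
    (L : Algebra.PatchingLevel 𝒪 r R M J) (i : Fin r) :
    L.φ (MvPowerSeries.X i) ∈ maximalIdeal (MvPowerSeries (Fin r) 𝒪) := by
  by_contra h
  have hu : IsUnit (L.φ (MvPowerSeries.X i)) := by
    rwa [mem_maximalIdeal, mem_nonunits_iff, not_not] at h
  have htop : Ideal.span (Set.range fun i : Fin r => L.φ (MvPowerSeries.X i)) = ⊤ :=
    Ideal.eq_top_of_isUnit_mem _ (Ideal.subset_span ⟨i, rfl⟩) hu
  obtain ⟨m, hm⟩ := exists_ne (0 : M)
  obtain ⟨x, rfl⟩ := L.π_surjective m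
  apply hm
  rw [L.ker_π, htop]
  simp

theorem ys_isWeaklyRegular (L : Algebra.PatchingLevel 𝒪 r R M ⊥) (ϖ : 𝒪)
    (hϖ : ∀ a : 𝒪, ϖ * a = 0 → a = 0) :
    IsWeaklyRegular L.N ((xs 𝒪 r ϖ).map L.φ) := by
  have h1 : IsWeaklyRegular (MvPowerSeries (Fin r) 𝒪) (xs 𝒪 r ϖ) := xs_isWeaklyRegular 𝒪 r ϖ hϖ
  have h2 : IsWeaklyRegular (Fin L.d → MvPowerSeries (Fin r) 𝒪) (xs 𝒪 r ϖ) :=
    ((TensorProduct.rid (MvPowerSeries (Fin r) 𝒪) (Fin L.d → MvPowerSeries (Fin r) 𝒪)).isWeaklyRegular_congr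
      _).mp (h1.isWeaklyRegular_lTensor (M₂ := Fin L.d → MvPowerSeries (Fin r) 𝒪))
  let e₀ : (Fin L.d → MvPowerSeries (Fin r) 𝒪) →+ L.N :=
    { toFun := fun c => ∑ i, L.φ (c i) • L.b i
      map_zero' := by simp
      map_add' := fun c c' => by simp [add_smul, Finset.sum_add_distrib] }
  have hinj : Function.Injective e₀ := by
    rw [injective_iff_map_eq_zero]
    intro c hc
    have := (L.b_rel c).mp hc
    funext i
    simpa using this i
  have hsurj : Function.Surjective e₀ := fun x => by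
    obtain ⟨c, rfl⟩ := L.b_span x
    exact ⟨c, rfl⟩
  let e : (Fin L.d → MvPowerSeries (Fin r) 𝒪) ≃+ L.N := AddEquiv.ofBijective e₀ ⟨hinj, hsurj⟩
  refine (AddEquiv.isWeaklyRegular_congr (e := e) ?_).mp h2
  rw [List.forall₂_map_right_iff, List.forall₂_same]
  intro f _ c
  change ∑ i, L.φ ((f • c) i) • L.b i = L.φ f • ∑ i, L.φ (c i) • L.b i
  rw [Finset.smul_sum]
  refine Finset.sum_congr rfl fun i _ => ?_
  rw [Pi.smul_apply, smul_eq_mul, map_mul, mul_smul]

theorem isFiniteLength_quot [IsLocalRing 𝒪] [IsNoetherianRing 𝒪]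
    {J : Ideal (MvPowerSeries (Fin r) 𝒪)} (L : Algebra.PatchingLevel 𝒪 r R M J)
    (ϖ : 𝒪) (hϖ : maximalIdeal 𝒪 = Ideal.span {ϖ}) :
    IsFiniteLength (MvPowerSeries (Fin r) 𝒪)
      (L.N ⧸ Ideal.ofList ((xs 𝒪 r ϖ).map L.φ) •
        (⊤ : Submodule (MvPowerSeries (Fin r) 𝒪) L.N)) := by
  have := finite_N L
  rw [isFiniteLength_iff_isNoetherian_isArtinian]
  refine ⟨inferInstance, ?_⟩
  have hC : ∀ a : 𝒪, L.φ (MvPowerSeries.C a) = MvPowerSeries.C a := fun a => by
    rw [MvPowerSeries.c_eq_algebraMap]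
    exact L.φ.commutes a
  have hJ : ∀ f : MvPowerSeries (Fin r) 𝒪, f ∈ maximalIdeal (MvPowerSeries (Fin r) 𝒪) →
      L.φ f ∈ Ideal.ofList ((xs 𝒪 r ϖ).map L.φ) := by
    intro f hf
    rw [← ofList_xs 𝒪 r ϖ hϖ] at hf
    have := Ideal.mem_map_of_mem (L.φ : MvPowerSeries (Fin r) 𝒪 →+* MvPowerSeries (Fin r) 𝒪) hf
    rwa [Ideal.map_ofList] at this
  refine lv_isArtinian_of_residue (A := 𝒪) (maximalIdeal 𝒪)
    (fun i => Submodule.Quotient.mk (L.b i)) ?_ ?_
  · intro x
    obtain ⟨x, rfl⟩ := Submodule.Quotient.mk_surjective _ x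
    obtain ⟨c, rfl⟩ := L.b_span x
    refine ⟨fun i => MvPowerSeries.constantCoeff (c i), ?_⟩
    have hrhs : (∑ i, algebraMap 𝒪 (MvPowerSeries (Fin r) 𝒪) (MvPowerSeries.constantCoeff (c i)) •
        (Submodule.Quotient.mk (L.b i) : L.N ⧸ Ideal.ofList ((xs 𝒪 r ϖ).map L.φ) •
          (⊤ : Submodule (MvPowerSeries (Fin r) 𝒪) L.N))) =
        Submodule.Quotient.mk (∑ i, algebraMap 𝒪 (MvPowerSeries (Fin r) 𝒪)
          (MvPowerSeries.constantCoeff (c i)) • L.b i) := by
      simp only [← Submodule.mkQ_apply, map_sum, map_smul]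
    rw [hrhs, Submodule.Quotient.eq, ← Finset.sum_sub_distrib]
    refine Submodule.sum_mem _ fun i _ => ?_
    rw [← sub_smul]
    refine Submodule.smul_mem_smul ?_ Submodule.mem_top
    have h1 : L.φ (c i) - algebraMap 𝒪 (MvPowerSeries (Fin r) 𝒪) (MvPowerSeries.constantCoeff (c i)) =
        L.φ (c i - MvPowerSeries.C (MvPowerSeries.constantCoeff (c i))) := by
      rw [map_sub, hC, MvPowerSeries.c_eq_algebraMap]
    rw [h1]
    apply hJ
    rw [mem_maximalIdeal, mem_nonunits_iff, MvPowerSeries.isUnit_iff_constantCoeff]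
    simp
  · intro a ha i
    rw [← Submodule.Quotient.mk_smul, Submodule.Quotient.mk_eq_zero]
    refine Submodule.smul_mem_smul ?_ Submodule.mem_top
    rw [← MvPowerSeries.c_eq_algebraMap, ← hC]
    apply hJ
    rw [mem_maximalIdeal, mem_nonunits_iff, MvPowerSeries.isUnit_iff_constantCoeff]
    simpa using ha

end Level

end Fermat.Agent.S57
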