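import Mathlib

set_option autoImplicit false

namespace Fermat.Agent.S57

open CategoryTheory IsLocalRing RingTheory.Sequence

section PD

theorem pd_hasProjectiveDimensionLE_of_linearEquiv {A : Type} [CommRing A]
    {M N : Type} [AddCommGroup M] [Module A M] [AddCommGroup N] [Module A N]
    (e : M ≃ₗ[A] N) (n : ℕ) (h : HasProjectiveDimensionLE (ModuleCat.of A M) n) :
    HasProjectiveDimensionLE (ModuleCat.of A N) n :=
  hasProjectiveDimensionLT_of_iso e.toModuleIso (n + 1)

theorem hasProjectiveDimensionLE_of_isFiniteLength {A : Type} [CommRing A] [IsLocalRing A] (n : ℕ)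
    (hk : HasProjectiveDimensionLE (ModuleCat.of A (A ⧸ maximalIdeal A)) n)
    {L : Type} [AddCommGroup L] [Module A L] (hL : IsFiniteLength A L) :
    HasProjectiveDimensionLE (ModuleCat.of A L) n := by
  induction hL with
  | of_subsingleton =>
    rename_i M _ _ _
    have h0 : Limits.IsZero (ModuleCat.of A M) := ModuleCat.isZero_of_subsingleton _
    have := h0.hasProjectiveDimensionLT_zero
    exact hasProjectiveDimensionLT_of_ge _ 0 _ (Nat.zero_le _)
  | @of_simple_quotient M _ _ K _ _ ih =>
    obtain ⟨I, hI, ⟨e⟩⟩ :=
      isSimpleModule_iff_quot_maximal.mp (inferInstance : IsSimpleModule A (M ⧸ K))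
    have hIm : I = maximalIdeal A := IsLocalRing.eq_maximalIdeal hI
    subst hIm
    have h3 : HasProjectiveDimensionLE (ModuleCat.of A (M ⧸ K)) n :=
      pd_hasProjectiveDimensionLE_of_linearEquiv e.symm n hk
    have h1 : HasProjectiveDimensionLE (ModuleCat.of A (LinearMap.ker K.mkQ)) n :=
      pd_hasProjectiveDimensionLE_of_linearEquiv
        (LinearEquiv.ofEq _ _ (Submodule.ker_mkQ K).symm) n ih
    exact (LinearMap.shortExact_shortComplexKer
      (Submodule.mkQ_surjective K)).hasProjectiveDimensionLT_X₂ (n + 1) h1 h3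

theorem free_of_regular {A : Type} [CommRing A] [IsLocalRing A] [IsNoetherianRing A]
    (xs : List A) (hxs : IsWeaklyRegular A xs) (hm : Ideal.ofList xs = maximalIdeal A)
    {N : Type} [AddCommGroup N] [Module A N] [Module.Finite A N]
    (ys : List A) (hys : IsWeaklyRegular N ys) (hmem : ∀ y ∈ ys, y ∈ maximalIdeal A)
    (hlen : xs.length ≤ ys.length)
    (hfl : IsFiniteLength A (N ⧸ Ideal.ofList ys • (⊤ : Submodule A N))) :
    Module.Free A N := by
  rcases subsingleton_or_nontrivial N with hN | hN
  · exact Module.Free.of_subsingleton A N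
  · have hreg : IsRegular A xs := ⟨hxs, by
      rw [smul_eq_mul, Ideal.mul_top, hm]
      exact (Ideal.IsMaximal.ne_top (maximalIdeal.isMaximal A)).symm⟩
    have hpd : projectiveDimension (ModuleCat.of A (Shrink.{0} (A ⧸ Ideal.ofList xs)))
        = xs.length :=
      ModuleCat.projectiveDimension_quotient_eq_length xs hreg
    have e : Shrink.{0} (A ⧸ Ideal.ofList xs) ≃ₗ[A] A ⧸ maximalIdeal A :=
      (Shrink.linearEquiv A _).trans (Submodule.quotEquivOfEq _ _ hm)
    have hk : HasProjectiveDimensionLE (ModuleCat.of A (A ⧸ maximalIdeal A)) xs.length := by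
      rw [← projectiveDimension_le_iff, ← projectiveDimension_eq_of_iso e.toModuleIso, hpd]
    have hq := hasProjectiveDimensionLE_of_isFiniteLength xs.length hk hfl
    rw [← projectiveDimension_le_iff] at hq
    have key := ModuleCat.projectiveDimension_quotient_eq_add_length_of_isWeaklyRegular
      (ModuleCat.of A N) ys hys hmem
    rw [key] at hq
    have h0 : projectiveDimension (ModuleCat.of A N) ≤ ((0 : ℕ) : WithBot ℕ∞) := by
      have h1 : projectiveDimension (ModuleCat.of A N) + (ys.length : WithBot ℕ∞)
          ≤ ((0 : ℕ) : WithBot ℕ∞) + (ys.length : WithBot ℕ∞) := by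
        refine hq.trans ?_
        rw [Nat.cast_zero, zero_add]
        exact_mod_cast hlen
      exact ENat.WithBot.add_le_add_natCast_right_iff.mp h1
    have hproj : Projective (ModuleCat.of A N) := by
      rw [projective_iff_hasProjectiveDimensionLE_zero, ← projectiveDimension_le_iff]
      exact h0
    have : Module.Projective A N := (IsProjective.iff_projective N).mpr hproj
    exact Module.free_of_flat_of_isLocalRing

end PD

end Fermat.Agent.S57
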