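import Fermat.Prelude.Def_Algebra_PatchingDatum
import Fermat.Agent.S57.RegSeq
import Fermat.Agent.S57.PD
import Fermat.Agent.S57.Level
import Mathlib

set_option autoImplicit false

namespace Fermat.Agent.S57

open IsLocalRing RingTheory.Sequence

/-- The module `N` of a patching level with trivial relation ideal is free over the
power series ring. -/
theorem free_N {𝒪 : Type} [CommRing 𝒪] [IsDomain 𝒪] [IsDiscreteValuationRing 𝒪]
    {r : ℕ} {R : Type} [CommRing R] [Algebra 𝒪 R]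
    {M : Type} [AddCommGroup M] [Module R M] [Nontrivial M]
    (L : Algebra.PatchingLevel 𝒪 r R M ⊥) : Module.Free (MvPowerSeries (Fin r) 𝒪) L.N := by
  obtain ⟨ϖ, hϖ⟩ := IsDiscreteValuationRing.exists_irreducible 𝒪
  have hmax : maximalIdeal 𝒪 = Ideal.span {ϖ} := hϖ.maximalIdeal_eq
  have hreg : ∀ a : 𝒪, ϖ * a = 0 → a = 0 := fun a ha =>
    (mul_eq_zero.mp ha).resolve_left hϖ.ne_zero
  have := finite_N L
  refine free_of_regular (xs 𝒪 r ϖ) (xs_isWeaklyRegular 𝒪 r ϖ hreg) (ofList_xs 𝒪 r ϖ hmax)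
    ((xs 𝒪 r ϖ).map L.φ) (ys_isWeaklyRegular L ϖ hreg) ?_ (by simp)
    (isFiniteLength_quot L ϖ hmax)
  intro y hy
  obtain ⟨x, hx, rfl⟩ := List.mem_map.mp hy
  rcases List.mem_append.mp hx with hx | hx
  · obtain ⟨i, -, rfl⟩ := List.mem_map.mp hx
    exact phi_X_mem L i
  · rw [List.mem_singleton] at hx
    subst hx
    have hC : L.φ (MvPowerSeries.C ϖ) = MvPowerSeries.C ϖ := by
      rw [MvPowerSeries.c_eq_algebraMap]
      exact L.φ.commutes ϖ
    rw [hC, mem_maximalIdeal, mem_nonunits_iff, MvPowerSeries.isUnit_iff_constantCoeff]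
    simpa using hϖ.not_isUnit

end Fermat.Agent.S57
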